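/-
Programme MAZ (S15), free layer, brick F-COMM (helper61), file 1: ABSTRACT COMMUTATION OF TWO
CORRESPONDENCES OF FUNCTION FIELDS.

* `inertiaDeg_eq_one_of_deg`, `pushforward_pushforward`, `pushforwardAlong_comp`: functoriality of the
  push-forward of divisors in towers (all places of degree one, e.g. over an algebraically closed
  constant field);
* `pullbackAlong_congr`, `pushforwardAlong_congr`: transport along an equality of embeddings;
* **`correspondence_comm`**: for `α₁ β₁ : F → F₁`, `α₂ β₂ : F → F₂` and a common top field `G` with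
  `A₁ B₁ : F₁ → G`, `A₂ B₂ : F₂ → G` such that
  `A₁ α₁ = A₂ α₂`, `B₁ β₁ = B₂ β₂`, `A₁ β₁ = B₂ α₂`, `A₂ β₂ = B₁ α₁`
  and the two base-change squares have compatible norms, the correspondences
  `T₁ = α₁_* β₁^*` and `T₂ = α₂_* β₂^*` commute on `Div F`:
  both composites are `(A₁ α₁)_* (B₂ β₂)^*`.
-/
import Mathlib
import Fermat.Agent.ES.HECKE.BaseChange19

set_option autoImplicit false
set_option linter.style.haveILetI false
set_option linter.unusedSectionVars false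

open AlgebraicCurve

noncomputable section

namespace Fermat.Agent.MAZ.Comm61.Abstract

open Fermat.Agent.ES.HECKE Fermat.Agent.ES.HECKE.BaseChange19

/-! ### push-forward in towers -/

section Tower

variable {K F F₁ G₁ : Type*} [Field K] [Field F] [Field F₁] [Field G₁]
  [Algebra K F] [Algebra K F₁] [Algebra K G₁]
  [Algebra F F₁] [Algebra F₁ G₁] [Algebra F G₁]
  [IsScalarTower K F F₁] [IsScalarTower K F₁ G₁] [IsScalarTower K F G₁]
  [IsScalarTower F F₁ G₁]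
  [Algebra.IsIntegral F F₁] [Algebra.IsIntegral F₁ G₁] [Algebra.IsIntegral F G₁]

omit [Algebra F₁ G₁] [Algebra F G₁] [IsScalarTower K F₁ G₁] [IsScalarTower K F G₁]
  [IsScalarTower F F₁ G₁] [Algebra.IsIntegral F₁ G₁] [Algebra.IsIntegral F G₁] [Field G₁]
  [Algebra K G₁] in
/-- Inertia degrees are one above a place of degree one. -/
theorem inertiaDeg_eq_one_of_deg (w : Place K F₁) (hw : w.deg = 1) : w.inertiaDeg F = 1 := by
  have h := w.deg_restrict_mul_inertiaDeg (F := F)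
  rw [hw] at h
  exact Nat.eq_one_of_mul_eq_one_left h

/-- `pushforward` is functorial in towers (places of degree one). -/
theorem pushforward_pushforward (hdeg₁ : ∀ v : Place K F₁, v.deg = 1)
    (hdeg : ∀ w : Place K G₁, w.deg = 1) (D : Divisor K G₁) :
    Divisor.pushforward F (Divisor.pushforward F₁ D) = Divisor.pushforward F D := by
  induction D using Finsupp.induction with
  | zero => simp
  | single_add w n D _ _ ih =>
    rw [map_add, map_add, map_add, ih]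
    congr 1
    rw [Divisor.pushforward_single, Divisor.pushforward_single, Divisor.pushforward_single,
      restrict_restrict (F := F) (F₁ := F₁) w,
      inertiaDeg_eq_one_of_deg (F := F₁) w (hdeg w),
      inertiaDeg_eq_one_of_deg (F := F) (w.restrict F₁) (hdeg₁ _),
      inertiaDeg_eq_one_of_deg (F := F) w (hdeg w)]
    simp

end Tower

/-! ### `Along` forms -/

section Along

variable {K F F₁ G₁ : Type*} [Field K] [Field F] [Field F₁] [Field G₁]
  [Algebra K F] [Algebra K F₁] [Algebra K G₁]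

/-- Functoriality of `pushforwardAlong`. -/
theorem pushforwardAlong_comp (φ : F →ₐ[K] F₁) (ψ : F₁ →ₐ[K] G₁) (hφ : φ.toRingHom.IsIntegral)
    (hψ : ψ.toRingHom.IsIntegral) (hψφ : (ψ.comp φ).toRingHom.IsIntegral)
    (hdeg₁ : ∀ v : Place K F₁, v.deg = 1) (hdeg : ∀ w : Place K G₁, w.deg = 1)
    (D : Divisor K G₁) :
    Divisor.pushforwardAlong (ψ.comp φ) hψφ D =
      Divisor.pushforwardAlong φ hφ (Divisor.pushforwardAlong ψ hψ D) := by
  letI := algebraAlong φ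
  letI := algebraAlong ψ
  letI := algebraAlong (ψ.comp φ)
  haveI := isScalarTower_along φ
  haveI := isScalarTower_along ψ
  haveI := isScalarTower_along (ψ.comp φ)
  haveI := isIntegral_along φ hφ
  haveI := isIntegral_along ψ hψ
  haveI := isIntegral_along (ψ.comp φ) hψφ
  haveI : IsScalarTower F F₁ G₁ := IsScalarTower.of_algebraMap_eq (fun _ => rfl)
  exact (pushforward_pushforward (F := F) (F₁ := F₁) (G₁ := G₁) hdeg₁ hdeg D).symm

theorem pullbackAlong_congr [HasPrincipalDivisors K G₁] {φ ψ : F →ₐ[K] G₁} (h : φ = ψ)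
    (hφ : φ.toRingHom.IsIntegral) (hψ : ψ.toRingHom.IsIntegral) (D : Divisor K F) :
    Divisor.pullbackAlong φ hφ D = Divisor.pullbackAlong ψ hψ D := by
  subst h
  rfl

theorem pushforwardAlong_congr {φ ψ : F →ₐ[K] G₁} (h : φ = ψ)
    (hφ : φ.toRingHom.IsIntegral) (hψ : ψ.toRingHom.IsIntegral) (D : Divisor K G₁) :
    Divisor.pushforwardAlong φ hφ D = Divisor.pushforwardAlong ψ hψ D := by
  subst h
  rfl

end Along

/-! ### commutation of two correspondences through a common top field -/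

section Comm

variable {K F F₁ F₂ G : Type*} [Field K] [Field F] [Field F₁] [Field F₂] [Field G]
  [Algebra K F] [Algebra K F₁] [Algebra K F₂] [Algebra K G]
  [HasPrincipalDivisors K F₁] [HasPrincipalDivisors K F₂] [HasPrincipalDivisors K G]

/-- One composite: `α₁_* β₁^* α₂_* β₂^* = (A₁ α₁)_* (B₂ β₂)^*`. -/
theorem correspondence_correspondence
    (α₁ β₁ : F →ₐ[K] F₁) (α₂ β₂ : F →ₐ[K] F₂) (A₁ : F₁ →ₐ[K] G) (B₂ : F₂ →ₐ[K] G)
    (h12 : A₁.comp β₁ = B₂.comp α₂)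
    (hα₁ : α₁.toRingHom.IsIntegral) (hβ₁ : β₁.toRingHom.IsIntegral)
    (hα₂ : α₂.toRingHom.IsIntegral) (hβ₂ : β₂.toRingHom.IsIntegral)
    (hA₁ : A₁.toRingHom.IsIntegral) (hB₂ : B₂.toRingHom.IsIntegral)
    (hfinα₂ : FiniteAlong K α₂) (hfinA₁ : FiniteAlong K A₁)
    (hNα₂ : NormFormulaAlong K α₂ hfinα₂) (hNA₁ : NormFormulaAlong K A₁ hfinA₁)
    (hnorm : ∀ f : F₂, normAlong A₁ (B₂ f) = β₁ (normAlong α₂ f))
    (hdeg₁ : ∀ v : Place K F₁, v.deg = 1) (hdegG : ∀ w : Place K G, w.deg = 1)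
    (D : Divisor K F) :
    Divisor.correspondence β₁ α₁ hβ₁ hα₁ (Divisor.correspondence β₂ α₂ hβ₂ hα₂ D) =
      Divisor.pushforwardAlong (A₁.comp α₁) (isIntegral_comp α₁ A₁ hα₁ hA₁)
        (Divisor.pullbackAlong (B₂.comp β₂) (isIntegral_comp β₂ B₂ hβ₂ hB₂) D) := by
  rw [Divisor.correspondence_apply, Divisor.correspondence_apply,
    pullbackAlong_pushforwardAlong α₂ β₁ A₁ B₂ h12 hα₂ hβ₁ hA₁ hB₂ hfinα₂ hfinA₁ hNα₂ hNA₁ hnorm,
    ← pullbackAlong_comp β₂ B₂ hβ₂ hB₂ (isIntegral_comp β₂ B₂ hβ₂ hB₂),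
    ← pushforwardAlong_comp α₁ A₁ hα₁ hA₁ (isIntegral_comp α₁ A₁ hα₁ hA₁) hdeg₁ hdegG]

/-- **Two correspondences commute** when they are dominated by a common top field with compatible
norms in both base-change squares. -/
theorem correspondence_comm
    (α₁ β₁ : F →ₐ[K] F₁) (α₂ β₂ : F →ₐ[K] F₂) (A₁ B₁ : F₁ →ₐ[K] G) (A₂ B₂ : F₂ →ₐ[K] G)
    (hA : A₁.comp α₁ = A₂.comp α₂) (hB : B₁.comp β₁ = B₂.comp β₂)
    (h12 : A₁.comp β₁ = B₂.comp α₂) (h21 : A₂.comp β₂ = B₁.comp α₁)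
    (hα₁ : α₁.toRingHom.IsIntegral) (hβ₁ : β₁.toRingHom.IsIntegral)
    (hα₂ : α₂.toRingHom.IsIntegral) (hβ₂ : β₂.toRingHom.IsIntegral)
    (hA₁ : A₁.toRingHom.IsIntegral) (hB₁ : B₁.toRingHom.IsIntegral)
    (hA₂ : A₂.toRingHom.IsIntegral) (hB₂ : B₂.toRingHom.IsIntegral)
    (hfinα₁ : FiniteAlong K α₁) (hfinα₂ : FiniteAlong K α₂)
    (hfinA₁ : FiniteAlong K A₁) (hfinA₂ : FiniteAlong K A₂)
    (hNα₁ : NormFormulaAlong K α₁ hfinα₁) (hNα₂ : NormFormulaAlong K α₂ hfinα₂)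
    (hNA₁ : NormFormulaAlong K A₁ hfinA₁) (hNA₂ : NormFormulaAlong K A₂ hfinA₂)
    (hnorm₁ : ∀ f : F₂, normAlong A₁ (B₂ f) = β₁ (normAlong α₂ f))
    (hnorm₂ : ∀ f : F₁, normAlong A₂ (B₁ f) = β₂ (normAlong α₁ f))
    (hdeg₁ : ∀ v : Place K F₁, v.deg = 1) (hdeg₂ : ∀ v : Place K F₂, v.deg = 1)
    (hdegG : ∀ w : Place K G, w.deg = 1) (D : Divisor K F) :
    Divisor.correspondence β₁ α₁ hβ₁ hα₁ (Divisor.correspondence β₂ α₂ hβ₂ hα₂ D) =
      Divisor.correspondence β₂ α₂ hβ₂ hα₂ (Divisor.correspondence β₁ α₁ hβ₁ hα₁ D) := by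
  rw [correspondence_correspondence α₁ β₁ α₂ β₂ A₁ B₂ h12 hα₁ hβ₁ hα₂ hβ₂ hA₁ hB₂ hfinα₂ hfinA₁
      hNα₂ hNA₁ hnorm₁ hdeg₁ hdegG D,
    correspondence_correspondence α₂ β₂ α₁ β₁ A₂ B₁ h21 hα₂ hβ₂ hα₁ hβ₁ hA₂ hB₁ hfinα₁ hfinA₂
      hNα₁ hNA₂ hnorm₂ hdeg₂ hdegG D,
    pullbackAlong_congr hB.symm (isIntegral_comp β₂ B₂ hβ₂ hB₂) (isIntegral_comp β₁ B₁ hβ₁ hB₁) D]
  exact pushforwardAlong_congr hA _ _ _

end Comm

end Fermat.Agent.MAZ.Comm61.Abstract
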