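/-
Programme MAZ (S15), free layer, brick F-COMM (helper61), file 2: THE TWO BASE-CHANGE SQUARES OF
LEVELS `N`, `N e`, `N d`, `N d e` (`d ≠ e` primes not dividing `N`).

* `levelBeta d h : Fbar N → Fbar M` (`N d ∣ M`): `f(q) ↦ f(q^d)` into an arbitrary higher level;
  `heckeAlphaBar_eq_levelIncl`, `heckeBetaBar_eq_levelBeta`, composition rules;
* `adjoin_eq_top_of_TS`: an element `y ∈ Fbar (M e)` whose expansion at the cusp `0` is
  `j(q^k)`, `gcd(k, e) = 1`, generates `Fbar (M e)` over `α(Fbar M)` (`e ∤ M` prime);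
* **`normAlong_square`**: the norm compatibility of the square
  `Fbar N --α--> Fbar (N e)`, `Fbar N --β_d--> Fbar (N d)`, `Fbar (N d) --incl--> Fbar M'`,
  `Fbar (N e) --β_d--> Fbar M'`, `M' = N d e`.
-/
import Mathlib
import Fermat.Agent.MAZ.Comm61.Abstract
import Fermat.Agent.ES.HECKE.LevelTop20
import Fermat.Agent.ES.HECKE.InputsFinal15
import Fermat.Prelude.Thm_ModularCurve_coeffMap_qExpand

set_option autoImplicit false
set_option linter.style.haveILetI false
set_option linter.unusedSectionVars false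

open ModularCurve AlgebraicCurve IntermediateField
open scoped MatrixGroups

noncomputable section

namespace Fermat.Agent.MAZ.Comm61.Level

open Fermat.Agent.X0 Fermat.Agent.RED.BASE.Interface12 Fermat.Agent.RED.LVL.FrickeExp19
open Fermat.Agent.ES.HECKE Fermat.Agent.ES.HECKE.LevelPullback12 Fermat.Agent.ES.HECKE.LevelTop20
open Fermat.Agent.RED.TOP

local notation "Qb" => AlgebraicClosure ℚ

/-! ### the maps -/

section Maps

variable {N M M' : ℕ} [NeZero N] [NeZero M] [NeZero M']

/-- `f(q) ↦ f(q^d)` from level `N` into any level `M` with `N d ∣ M`. -/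
def levelBeta (d : ℕ) [NeZero d] (h : N * d ∣ M) :
    modularFunctionFieldBar N →ₐ[Qb] modularFunctionFieldBar M :=
  (levelIncl h).comp (heckeBetaBar Qb N d)

@[simp]
theorem coe_levelBeta (d : ℕ) [NeZero d] (h : N * d ∣ M) (x : modularFunctionFieldBar N) :
    ((levelBeta d h x : modularFunctionFieldBar M) : LaurentSeries Qb) =
      qExpand Qb d (x : LaurentSeries Qb) := by
  rw [levelBeta, AlgHom.comp_apply, coe_levelIncl, coe_heckeBetaBar]

theorem heckeAlphaBar_eq_levelIncl (ℓ : ℕ) [NeZero ℓ] :
    heckeAlphaBar Qb N ℓ = levelIncl (dvd_mul_right N ℓ) := rfl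

theorem heckeBetaBar_eq_levelBeta (ℓ : ℕ) [NeZero ℓ] :
    heckeBetaBar Qb N ℓ = levelBeta ℓ (dvd_refl (N * ℓ)) := by
  apply AlgHom.ext
  intro x
  apply Subtype.ext
  rw [coe_levelBeta, coe_heckeBetaBar]

theorem levelIncl_comp_levelIncl (h1 : N ∣ M) (h2 : M ∣ M') :
    (levelIncl h2).comp (levelIncl h1) = levelIncl (h1.trans h2) := by
  apply AlgHom.ext
  intro x
  apply Subtype.ext
  rw [AlgHom.comp_apply, coe_levelIncl, coe_levelIncl, coe_levelIncl]

theorem levelIncl_comp_levelBeta (d : ℕ) [NeZero d] (h1 : N * d ∣ M) (h2 : M ∣ M') :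
    (levelIncl h2).comp (levelBeta d h1) = levelBeta d (h1.trans h2) := by
  apply AlgHom.ext
  intro x
  apply Subtype.ext
  rw [AlgHom.comp_apply, coe_levelIncl, coe_levelBeta, coe_levelBeta]

theorem levelBeta_comp_levelIncl (d : ℕ) [NeZero d] (h1 : N ∣ M) (h2 : M * d ∣ M') :
    (levelBeta d h2).comp (levelIncl h1) =
      levelBeta d ((mul_dvd_mul_right h1 d).trans h2) := by
  apply AlgHom.ext
  intro x
  apply Subtype.ext
  rw [AlgHom.comp_apply, coe_levelBeta, coe_levelIncl, coe_levelBeta]

theorem levelBeta_comp_levelBeta_comm (d e : ℕ) [NeZero d] [NeZero e]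
    (hd : N * d ∣ M) (he : N * e ∣ M') {T : ℕ} [NeZero T] (hde : M * e ∣ T) (hed : M' * d ∣ T) :
    (levelBeta e hde).comp (levelBeta d hd) = (levelBeta d hed).comp (levelBeta e he) := by
  apply AlgHom.ext
  intro x
  apply Subtype.ext
  rw [AlgHom.comp_apply, AlgHom.comp_apply, coe_levelBeta, coe_levelBeta, coe_levelBeta,
    coe_levelBeta, qExpand_qExpand, qExpand_qExpand]
  exact qExpand_congr (mul_comm e d) _

theorem levelBeta_isIntegral (d : ℕ) [NeZero d] (hd : d.Prime) (hdN : ¬ d ∣ N) (h : N * d ∣ M) :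
    (levelBeta d h).toRingHom.IsIntegral :=
  BaseChange19.isIntegral_comp (heckeBetaBar Qb N d) (levelIncl h)
    (AlongDegree25.heckeBetaBarIntegral Qb N d hd hdN) (levelIncl_isIntegral h)

theorem levelIncl_normFormulaAlong (h : N ∣ M) :
    NormFormulaAlong Qb (levelIncl h) (levelIncl_finiteAlong h) :=
  NormFormula15.normFormulaAlong_of_isGen (levelIncl h) (levelIncl_finiteAlong h)
    (FbarFacts20.isGen_j M)

end Maps

/-! ### generation over `α(Fbar M)` from the expansion at the cusp `0` -/

section Generation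

variable {M e : ℕ} [NeZero M] [NeZero e]

/-- the degree over `α(Fbar M)` of an element of `Fbar (M e)` whose expansion at the cusp `0` is
`j(q^k)`, `k` prime to `e`, is at least `e`. -/
theorem le_natDegree_minpoly_of_TS (he : e.Prime) (heM : ¬ e ∣ M)
    (y : modularFunctionFieldBar (M * e)) (k : ℕ) [NeZero k] (hk : Nat.Coprime k e)
    (hval : (cuspData (M * e)).T ModularGroup.S y = qExpand Kbar k jqK) :
    letI := algebraAlong (heckeAlphaBar Qb M e)
    e ≤ (minpoly (modularFunctionFieldBar M) y).natDegree := by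
  letI := algebraAlong (heckeAlphaBar Qb M e)
  haveI : FiniteDimensional (modularFunctionFieldBar M) (modularFunctionFieldBar (M * e)) :=
    AlongDegree25.finiteAlong_alpha Qb M e he heM
  set τ : modularFunctionFieldBar (M * e) →+* LaurentSeries Kbar :=
    (cuspData (M * e)).T ModularGroup.S with hτ
  letI : Algebra (modularFunctionFieldBar M) (LaurentSeries Kbar) :=
    (τ.comp (algebraMap (modularFunctionFieldBar M) (modularFunctionFieldBar (M * e)))).toAlgebra
  let φ : modularFunctionFieldBar (M * e) →ₐ[modularFunctionFieldBar M] LaurentSeries Kbar :=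
    { τ with commutes' := fun _ => rfl }
  have hφ : Function.Injective φ := τ.injective
  have hmin : minpoly (modularFunctionFieldBar M) (φ y) =
      minpoly (modularFunctionFieldBar M) y := minpoly.algHom_eq φ hφ y
  rw [← hmin]
  have hval' : φ y = qExpand Kbar k jqK := hval
  have hord : (φ y).order = -(k : ℤ) := by rw [hval']; exact order_qExpand_jqK k
  have hy0 : φ y ≠ 0 := by
    intro h0
    rw [h0, HahnSeries.order_zero] at hord
    have : (k : ℤ) = 0 := by omega
    exact NeZero.ne k (by exact_mod_cast this)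
  have hcop : IsCoprime (φ y).order (e : ℤ) := by
    rw [hord]
    exact (Nat.isCoprime_iff_coprime.mpr hk).neg_left
  have hF : ∀ a : modularFunctionFieldBar M,
      algebraMap (modularFunctionFieldBar M) (LaurentSeries Kbar) a ∈
        Set.range (qExpand Kbar e) := fun a => T_S_mem_range M (M * e) e rfl a
  have hint : IsIntegral (modularFunctionFieldBar M) (φ y) :=
    (isIntegral_algHom_iff φ hφ).mpr
      (Algebra.IsIntegral.isIntegral (R := modularFunctionFieldBar M) y)
  exact Fermat.Agent.IG.PR.RamDeg25.le_natDegree_minpoly hy0 hcop hF hint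

/-- such an element generates `Fbar (M e)` over `α(Fbar M)`. -/
theorem adjoin_eq_top_of_TS (he : e.Prime) (heM : ¬ e ∣ M)
    (y : modularFunctionFieldBar (M * e)) (k : ℕ) [NeZero k] (hk : Nat.Coprime k e)
    (hval : (cuspData (M * e)).T ModularGroup.S y = qExpand Kbar k jqK) :
    letI := algebraAlong (heckeAlphaBar Qb M e)
    IntermediateField.adjoin (modularFunctionFieldBar M) {y} = ⊤ := by
  letI := algebraAlong (heckeAlphaBar Qb M e)
  haveI : FiniteDimensional (modularFunctionFieldBar M) (modularFunctionFieldBar (M * e)) :=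
    AlongDegree25.finiteAlong_alpha Qb M e he heM
  have hfr : Module.finrank (modularFunctionFieldBar M) (modularFunctionFieldBar (M * e)) = e + 1 :=
    AlongDegree25.finrankAlong_alpha Qb M e he heM
  rw [Field.primitive_element_iff_minpoly_natDegree_eq, hfr]
  have hdvd : (minpoly (modularFunctionFieldBar M) y).natDegree ∣ e + 1 := by
    rw [← hfr]
    exact minpoly.degree_dvd (Algebra.IsIntegral.isIntegral _)
  exact eq_succ_of_dvd_of_le he.two_le hdvd (le_natDegree_minpoly_of_TS he heM y k hk hval)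

end Generation

/-! ### the square -/

section Square

variable (N d e : ℕ) [NeZero N] [NeZero d] [NeZero e]

/-- `β_d (j(q^e)) = j(q^{d e})` in `Fbar (N d e)`. -/
theorem levelBeta_jl (h : N * e * d ∣ N * d * e) :
    levelBeta d h (jl N e) = jdF (N * d * e) (d * e) ⟨N, by ring⟩ := by
  apply Subtype.ext
  rw [coe_levelBeta, coe_jl, Fermat.Agent.X0.FracR.coe_jdF]
  show qExpand Qb d (coeffMap (algebraMap ℚ Qb) (qExpand ℚ e jq)) =
    coeffMap (algebraMap ℚ Qb) (qExpand ℚ (d * e) jq)
  rw [← ModularCurve.coeffMap_qExpand, qExpand_qExpand]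

/-- **Norm compatibility of the square** of levels `N`, `N e` (along `α`), `N d` (along `β_d`),
`N d e`. -/
theorem normAlong_square (hd : d.Prime) (he : e.Prime) (heN : ¬ e ∣ N)
    (hed : e ≠ d) (h : N * e * d ∣ N * d * e) (f : modularFunctionFieldBar (N * e)) :
    BaseChange19.normAlong (heckeAlphaBar Qb (N * d) e) (levelBeta d h f) =
      heckeBetaBar Qb N d (BaseChange19.normAlong (heckeAlphaBar Qb N e) f) := by
  have heNd : ¬ e ∣ N * d := by
    intro hdiv
    rcases (Nat.Prime.dvd_mul he).mp hdiv with h1 | h1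
    · exact heN h1
    · exact hed ((Nat.prime_dvd_prime_iff_eq he hd).mp h1)
  have hcomm : (heckeAlphaBar Qb (N * d) e).comp (heckeBetaBar Qb N d) =
      (levelBeta d h).comp (heckeAlphaBar Qb N e) := by
    apply AlgHom.ext
    intro x
    apply Subtype.ext
    rw [AlgHom.comp_apply, AlgHom.comp_apply, coe_heckeAlphaBar, coe_heckeBetaBar, coe_levelBeta,
      coe_heckeAlphaBar]
  refine NormCompat12.normAlong_compat_of_adjoin (heckeAlphaBar Qb N e) (heckeBetaBar Qb N d)
    (heckeAlphaBar Qb (N * d) e) (levelBeta d h) hcomm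
    (AlongDegree25.finiteAlong_alpha Qb N e he heN)
    (AlongDegree25.finiteAlong_alpha Qb (N * d) e he heNd) ?_ (jl N e) ?_ f
  · rw [AlongDegree25.finrankAlong_alpha Qb N e he heN,
      AlongDegree25.finrankAlong_alpha Qb (N * d) e he heNd]
  · rw [levelBeta_jl N d e h]
    have hcop : Nat.Coprime N e := ((Nat.Prime.coprime_iff_not_dvd he).mpr heN).symm
    exact adjoin_eq_top_of_TS he heNd _ N hcop
      (T_S_jdF (N * d * e) (d * e) N (by ring))

end Square

end Fermat.Agent.MAZ.Comm61.Level
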