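/-
Programme MAZ (S15), free layer, brick F-COMM (helper61), file 3: **THE HECKE OPERATORS `T_ℓ`, `T_ℓ'`
COMMUTE ON `J₀(N)(ℚ̄)`** for distinct primes `ℓ, ℓ'` not dividing `N`.

* `normAlong_square'`: the norm compatibility of `Level.normAlong_square` for a top level `M'` that
  is only propositionally `N d e`;
* `heckeDivBar_comm`: on divisors, `T_ℓ T_ℓ' = T_ℓ' T_ℓ` (both are `(incl)_* (q ↦ q^{ℓℓ'})^*` through
  level `N ℓ ℓ'`);
* `heckeOperatorAlong_comm`, **`heckeOperatorBar_comm`**, `heckeOperatorBar_mul_comm`: on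
  `JZero N`.
-/
import Mathlib
import Fermat.Agent.MAZ.Comm61.Level
import Fermat.Agent.ES.HECKE.PointFormula28
import Fermat.Prelude.Def_ModularCurve_HeckeModule

set_option autoImplicit false
set_option linter.style.haveILetI false
set_option linter.unusedSectionVars false

open ModularCurve AlgebraicCurve IntermediateField

noncomputable section

namespace Fermat.Agent.MAZ.Comm61.Main

open Fermat.Agent.X0 Fermat.Agent.ES.HECKE Fermat.Agent.ES.HECKE.LevelPullback12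
open Fermat.Agent.ES.HECKE.InputsMain19 (hasPrincipalDivisors_level fundamentalIdentityAlong_beta)
open Fermat.Agent.RED.TOP Fermat.Agent.MAZ.Comm61.Level

local notation "Qb" => AlgebraicClosure ℚ

variable (N : ℕ) [NeZero N]

/-- `Level.normAlong_square` for a top level `M'` with `M' = N d e` only propositionally. -/
theorem normAlong_square' (d e : ℕ) [NeZero d] [NeZero e] (hd : d.Prime) (he : e.Prime)
    (heN : ¬ e ∣ N) (hed : e ≠ d) {M' : ℕ} [NeZero M'] (hM' : M' = N * d * e)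
    (hNd : N * d ∣ M') (hNed : N * e * d ∣ M') (f : modularFunctionFieldBar (N * e)) :
    BaseChange19.normAlong (levelIncl hNd) (levelBeta d hNed f) =
      heckeBetaBar Qb N d (BaseChange19.normAlong (heckeAlphaBar Qb N e) f) := by
  subst hM'
  exact normAlong_square N d e hd he heN hed hNed f

variable (ℓ ℓ' : ℕ) [NeZero ℓ] [NeZero ℓ']

/-- **`T_ℓ T_ℓ' = T_ℓ' T_ℓ` on divisors** of `Fbar N` (`ℓ ≠ ℓ'` primes not dividing `N`). -/
theorem heckeDivBar_comm (hℓ : ℓ.Prime) (hℓ' : ℓ'.Prime) (hℓN : ¬ ℓ ∣ N) (hℓ'N : ¬ ℓ' ∣ N)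
    (hne : ℓ ≠ ℓ')
    (D : Divisor Qb (modularFunctionFieldBar N)) :
    haveI := hasPrincipalDivisors_level N ℓ
    haveI := hasPrincipalDivisors_level N ℓ'
    Divisor.correspondence (heckeBetaBar Qb N ℓ) (heckeAlphaBar Qb N ℓ)
        (AlongDegree25.heckeBetaBarIntegral Qb N ℓ hℓ hℓN)
        (AlongDegree25.heckeAlphaBarIntegral Qb N ℓ hℓ hℓN)
      (Divisor.correspondence (heckeBetaBar Qb N ℓ') (heckeAlphaBar Qb N ℓ')
        (AlongDegree25.heckeBetaBarIntegral Qb N ℓ' hℓ' hℓ'N)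
        (AlongDegree25.heckeAlphaBarIntegral Qb N ℓ' hℓ' hℓ'N) D) =
    Divisor.correspondence (heckeBetaBar Qb N ℓ') (heckeAlphaBar Qb N ℓ')
        (AlongDegree25.heckeBetaBarIntegral Qb N ℓ' hℓ' hℓ'N)
        (AlongDegree25.heckeAlphaBarIntegral Qb N ℓ' hℓ' hℓ'N)
      (Divisor.correspondence (heckeBetaBar Qb N ℓ) (heckeAlphaBar Qb N ℓ)
        (AlongDegree25.heckeBetaBarIntegral Qb N ℓ hℓ hℓN)
        (AlongDegree25.heckeAlphaBarIntegral Qb N ℓ hℓ hℓN) D) := by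
  haveI := hasPrincipalDivisors_level N ℓ
  haveI := hasPrincipalDivisors_level N ℓ'
  haveI : HasPrincipalDivisors Qb (modularFunctionFieldBar (N * ℓ * ℓ')) :=
    FbarFacts20.hasPrincipalDivisors_bar (N * ℓ * ℓ')
  -- arithmetic
  have hℓ'Nℓ : ¬ ℓ' ∣ N * ℓ := by
    intro hdiv
    rcases (Nat.Prime.dvd_mul hℓ').mp hdiv with h1 | h1
    · exact hℓ'N h1
    · exact hne ((Nat.prime_dvd_prime_iff_eq hℓ' hℓ).mp h1).symm
  have hℓNℓ' : ¬ ℓ ∣ N * ℓ' := by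
    intro hdiv
    rcases (Nat.Prime.dvd_mul hℓ).mp hdiv with h1 | h1
    · exact hℓN h1
    · exact hne ((Nat.prime_dvd_prime_iff_eq hℓ hℓ').mp h1)
  have h2 : N * ℓ' ∣ N * ℓ * ℓ' := ⟨ℓ, by ring⟩
  have h2' : N * ℓ' * ℓ ∣ N * ℓ * ℓ' := ⟨1, by ring⟩
  have h1' : N * ℓ * ℓ' ∣ N * ℓ * ℓ' := dvd_refl _
  -- the eight maps
  refine Abstract.correspondence_comm
    (heckeAlphaBar Qb N ℓ) (heckeBetaBar Qb N ℓ) (heckeAlphaBar Qb N ℓ') (heckeBetaBar Qb N ℓ')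
    (heckeAlphaBar Qb (N * ℓ) ℓ') (levelBeta ℓ' h1') (levelIncl h2) (levelBeta ℓ h2')
    ?hA ?hB ?h12 ?h21
    (AlongDegree25.heckeAlphaBarIntegral Qb N ℓ hℓ hℓN)
    (AlongDegree25.heckeBetaBarIntegral Qb N ℓ hℓ hℓN)
    (AlongDegree25.heckeAlphaBarIntegral Qb N ℓ' hℓ' hℓ'N)
    (AlongDegree25.heckeBetaBarIntegral Qb N ℓ' hℓ' hℓ'N)
    (AlongDegree25.heckeAlphaBarIntegral Qb (N * ℓ) ℓ' hℓ' hℓ'Nℓ)
    (levelBeta_isIntegral ℓ' hℓ' hℓ'Nℓ h1')
    (levelIncl_isIntegral h2)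
    (levelBeta_isIntegral ℓ hℓ hℓNℓ' h2')
    (AlongDegree25.finiteAlong_alpha Qb N ℓ hℓ hℓN)
    (AlongDegree25.finiteAlong_alpha Qb N ℓ' hℓ' hℓ'N)
    (AlongDegree25.finiteAlong_alpha Qb (N * ℓ) ℓ' hℓ' hℓ'Nℓ)
    (levelIncl_finiteAlong h2)
    (InputsFinal15.normFormulaAlong_alpha N ℓ hℓ hℓN)
    (InputsFinal15.normFormulaAlong_alpha N ℓ' hℓ' hℓ'N)
    (InputsFinal15.normFormulaAlong_alpha (N * ℓ) ℓ' hℓ' hℓ'Nℓ)
    (levelIncl_normFormulaAlong h2)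
    ?hnorm₁ ?hnorm₂
    (FbarFacts20.deg_eq_one_bar (N * ℓ)) (FbarFacts20.deg_eq_one_bar (N * ℓ'))
    (FbarFacts20.deg_eq_one_bar (N * ℓ * ℓ')) D
  case hA =>
    apply AlgHom.ext
    intro x
    apply Subtype.ext
    rw [AlgHom.comp_apply, AlgHom.comp_apply, coe_heckeAlphaBar, coe_heckeAlphaBar, coe_levelIncl,
      coe_heckeAlphaBar]
  case hB =>
    apply AlgHom.ext
    intro x
    apply Subtype.ext
    rw [AlgHom.comp_apply, AlgHom.comp_apply, coe_levelBeta, coe_levelBeta, coe_heckeBetaBar,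
      coe_heckeBetaBar, qExpand_qExpand, qExpand_qExpand]
    exact qExpand_congr (mul_comm ℓ' ℓ) _
  case h12 =>
    apply AlgHom.ext
    intro x
    apply Subtype.ext
    rw [AlgHom.comp_apply, AlgHom.comp_apply, coe_heckeAlphaBar, coe_heckeBetaBar, coe_levelBeta,
      coe_heckeAlphaBar]
  case h21 =>
    apply AlgHom.ext
    intro x
    apply Subtype.ext
    rw [AlgHom.comp_apply, AlgHom.comp_apply, coe_levelIncl, coe_heckeBetaBar, coe_levelBeta,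
      coe_heckeAlphaBar]
  case hnorm₁ =>
    intro f
    exact normAlong_square N ℓ ℓ' hℓ hℓ' hℓ'N (Ne.symm hne) h2' f
  case hnorm₂ =>
    intro f
    exact normAlong_square' N ℓ' ℓ hℓ' hℓ hℓN hne (by ring) h2 h1' f

/-- **`T_ℓ T_ℓ' = T_ℓ' T_ℓ` on `J₀(N)(ℚ̄)`** (Prelude's `heckeOperatorAlong`). -/
theorem heckeOperatorAlong_comm (hℓ : ℓ.Prime) (hℓ' : ℓ'.Prime) (hℓN : ¬ ℓ ∣ N) (hℓ'N : ¬ ℓ' ∣ N)
    (hne : ℓ ≠ ℓ') (x : JZero N) :
    heckeOperatorAlong Qb N ℓ (heckeOperatorAlong Qb N ℓ' x) =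
      heckeOperatorAlong Qb N ℓ' (heckeOperatorAlong Qb N ℓ x) := by
  haveI := hasPrincipalDivisors_level N ℓ
  haveI := hasPrincipalDivisors_level N ℓ'
  obtain ⟨D, rfl⟩ := Pic0.mk_surjective x
  have e1 := fun D => PointFormula28.heckeOperatorAlong_mk
    (AlongDegree25.heckeAlphaBarIntegral Qb N ℓ hℓ hℓN)
    (AlongDegree25.heckeBetaBarIntegral Qb N ℓ hℓ hℓN)
    (fundamentalIdentityAlong_beta N ℓ hℓ hℓN)
    (AlongDegree25.finiteAlong_alpha Qb N ℓ hℓ hℓN)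
    (InputsFinal15.normFormulaAlong_alpha N ℓ hℓ hℓN) D
  have e2 := fun D => PointFormula28.heckeOperatorAlong_mk
    (AlongDegree25.heckeAlphaBarIntegral Qb N ℓ' hℓ' hℓ'N)
    (AlongDegree25.heckeBetaBarIntegral Qb N ℓ' hℓ' hℓ'N)
    (fundamentalIdentityAlong_beta N ℓ' hℓ' hℓ'N)
    (AlongDegree25.finiteAlong_alpha Qb N ℓ' hℓ' hℓ'N)
    (InputsFinal15.normFormulaAlong_alpha N ℓ' hℓ' hℓ'N) D
  rw [e2 D, e1 _, e1 D, e2 _]
  congr 1
  apply Subtype.ext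
  exact heckeDivBar_comm N ℓ ℓ' hℓ hℓ' hℓN hℓ'N hne (D : Divisor Qb (modularFunctionFieldBar N))

/-- **F-COMM**: `heckeOperatorBar N ℓ` and `heckeOperatorBar N ℓ'` commute (`ℓ, ℓ' ∤ N`). -/
theorem heckeOperatorBar_comm (p q : Nat.Primes) (hpN : ¬ (p : ℕ) ∣ N) (hqN : ¬ (q : ℕ) ∣ N)
    (x : JZero N) :
    heckeOperatorBar N p (heckeOperatorBar N q x) = heckeOperatorBar N q (heckeOperatorBar N p x) := by
  by_cases hpq : p = q
  · subst hpq
    rfl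
  · haveI : NeZero (p : ℕ) := ⟨p.2.ne_zero⟩
    haveI : NeZero (q : ℕ) := ⟨q.2.ne_zero⟩
    rw [heckeOperatorBar_apply, heckeOperatorBar_apply, heckeOperatorBar_apply,
      heckeOperatorBar_apply]
    exact heckeOperatorAlong_comm N (p : ℕ) (q : ℕ) p.2 q.2 hpN hqN
      (fun h => hpq (Subtype.ext h)) x

/-- the same as an identity in `Module.End ℤ (JZero N)`. -/
theorem heckeOperatorBar_mul_comm (p q : Nat.Primes) (hpN : ¬ (p : ℕ) ∣ N)
    (hqN : ¬ (q : ℕ) ∣ N) :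
    heckeOperatorBar N p * heckeOperatorBar N q = heckeOperatorBar N q * heckeOperatorBar N p := by
  apply LinearMap.ext
  intro x
  exact heckeOperatorBar_comm N p q hpN hqN x

end Fermat.Agent.MAZ.Comm61.Main
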